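import Fermat.Agent.S25.H10.CechDefs

/-!
# S25 / block CECH, leaf K1a: the degree bound

`exists_fg_ge_H0` (exact statement of helper10's `CechSkel`): for a two-chart datum `D` with
`N0`, `N1` retracts of `A[X]^n` (`IsFGProj`) and injective restriction maps, the kernel
`H⁰(L(m∞))` of the twisted differential is contained in a finitely generated `A`-submodule of
`N0 × N1`.  Polynomial-only proof (no extension of the coordinates to `N01`).
-/

set_option autoImplicit false

namespace Fermat.Agent.S25.H850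

open Polynomial Fermat.Agent.S25.H10

universe u v

variable {A : Type u} [CommRing A]

/-- Vectors of polynomials all of whose coordinates have degree `≤ d`. -/
noncomputable def degLE (A : Type u) [CommRing A] (n d : ℕ) : Submodule A (Fin n → A[X]) :=
  Submodule.pi Set.univ fun _ => Polynomial.degreeLE A d

theorem mem_degLE_iff {n d : ℕ} (w : Fin n → A[X]) :
    w ∈ degLE A n d ↔ ∀ i k, d < k → (w i).coeff k = 0 := by
  simp only [degLE, Submodule.mem_pi, Set.mem_univ, true_imp_iff, Polynomial.mem_degreeLE,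
    Polynomial.degree_le_iff_coeff_zero]
  constructor
  · intro h i k hk
    exact h i k (by exact_mod_cast hk)
  · intro h i k hk
    exact h i k (by exact_mod_cast hk)

theorem degLE_fg (n d : ℕ) : (degLE A n d).FG := by
  classical
  refine Submodule.fg_pi fun _ => ?_
  rw [Polynomial.degreeLE_eq_span_X_pow]
  exact Submodule.fg_span (Finset.finite_toSet _)

theorem degLE_mono {n d d' : ℕ} (h : d ≤ d') : degLE A n d ≤ degLE A n d' := by
  intro w hw
  rw [mem_degLE_iff] at hw ⊢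
  exact fun i k hk => hw i k (lt_of_le_of_lt h hk)

theorem exists_mem_degLE {n : ℕ} (w : Fin n → A[X]) : ∃ e, w ∈ degLE A n e := by
  refine ⟨Finset.univ.sup fun i => (w i).natDegree, ?_⟩
  rw [mem_degLE_iff]
  intro i k hk
  apply Polynomial.coeff_eq_zero_of_natDegree_lt
  exact lt_of_le_of_lt (Finset.le_sup (f := fun i => (w i).natDegree) (Finset.mem_univ i)) hk

theorem X_pow_smul_mem_degLE {n d : ℕ} (k : ℕ) {w : Fin n → A[X]} (hw : w ∈ degLE A n d) :
    (X ^ k : A[X]) • w ∈ degLE A n (d + k) := by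
  rw [mem_degLE_iff] at hw ⊢
  intro i j hj
  rw [Pi.smul_apply, smul_eq_mul, Polynomial.coeff_X_pow_mul']
  split_ifs with h
  · exact hw i _ (by omega)
  · rfl

theorem mem_degLE_of_X_pow_smul_mem {n d : ℕ} (k : ℕ) {w : Fin n → A[X]}
    (hw : (X ^ k : A[X]) • w ∈ degLE A n (d + k)) : w ∈ degLE A n d := by
  rw [mem_degLE_iff] at hw ⊢
  intro i j hj
  have := hw i (j + k) (by omega)
  rwa [Pi.smul_apply, smul_eq_mul, Polynomial.coeff_X_pow_mul] at this

section FGProj

variable {N : Type v} [AddCommGroup N] [Module A N] {E : Module.End A N}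

theorem ι_pow_apply {n : ℕ} {ι : N →ₗ[A] (Fin n → A[X])}
    (hι : ∀ v, ι (E v) = (X : A[X]) • ι v) (k : ℕ) (v : N) :
    ι ((E ^ k) v) = (X ^ k : A[X]) • ι v := by
  induction k generalizing v with
  | zero => simp
  | succ k ih => rw [pow_succ', Module.End.mul_apply, hι, ih, pow_succ', mul_smul]

theorem π_pow_smul {n : ℕ} {π : (Fin n → A[X]) →ₗ[A] N}
    (hπ : ∀ w, π ((X : A[X]) • w) = E (π w)) (k : ℕ) (w : Fin n → A[X]) :
    π ((X ^ k : A[X]) • w) = (E ^ k) (π w) := by
  induction k generalizing w with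
  | zero => simp
  | succ k ih => rw [pow_succ', mul_smul, hπ, ih, pow_succ', Module.End.mul_apply]

theorem single_X_pow {n : ℕ} (j : Fin n) (k : ℕ) :
    (Pi.single j (X ^ k : A[X]) : Fin n → A[X]) = (X ^ k : A[X]) • Pi.single j (1 : A[X]) := by
  funext i
  by_cases h : i = j
  · subst h; simp
  · simp [Pi.single_eq_of_ne h]

/-- To check that a linear map sends `degLE A n e` into a submodule it suffices to check the
vectors `X ^ k • e_j`, `k ≤ e`. -/
theorem degLE_le_comap {n e : ℕ} {P : Type*} [AddCommGroup P] [Module A P]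
    (Φ : (Fin n → A[X]) →ₗ[A] P) (S : Submodule A P)
    (h : ∀ (j : Fin n) (k : ℕ), k ≤ e → Φ ((X ^ k : A[X]) • Pi.single j (1 : A[X])) ∈ S) :
    degLE A n e ≤ S.comap Φ := by
  classical
  intro w hw
  rw [Submodule.mem_comap]
  have hsum : w = ∑ j, (LinearMap.single A (fun _ : Fin n => A[X]) j) (w j) := by
    simp only [LinearMap.coe_single]
    exact (Finset.univ_sum_single w).symm
  rw [hsum, map_sum]
  refine Submodule.sum_mem _ fun j _ => ?_
  have hwj : w j ∈ Polynomial.degreeLE A e := by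
    have := hw
    simp only [degLE, Submodule.mem_pi, Set.mem_univ, true_imp_iff] at this
    exact this j
  have hle : Polynomial.degreeLE A e ≤
      S.comap (Φ ∘ₗ LinearMap.single A (fun _ : Fin n => A[X]) j) := by
    rw [Polynomial.degreeLE_eq_span_X_pow, Submodule.span_le]
    intro p hp
    simp only [Finset.coe_image, Finset.coe_range, Set.mem_image, Set.mem_Iio] at hp
    obtain ⟨k, hk, rfl⟩ := hp
    simp only [SetLike.mem_coe, Submodule.mem_comap, LinearMap.coe_comp, Function.comp_apply,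
      LinearMap.coe_single]
    rw [single_X_pow]
    exact h j k (by omega)
  exact hle hwj

end FGProj

variable {N0 N1 N01 : Type v}
  [AddCommGroup N0] [AddCommGroup N1] [AddCommGroup N01]
  [Module A N0] [Module A N1] [Module A N01]

/-- The datum with the two charts exchanged. -/
def cechSwap (D : CechOps A N0 N1 N01) : CechOps A N1 N0 N01 where
  X0 := D.Y1
  Y1 := D.X0
  T := D.Tinv
  Tinv := D.T
  r0 := D.r1
  r1 := D.r0
  T_mul_Tinv := D.Tinv_mul_T
  Tinv_mul_T := D.T_mul_Tinv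
  r0_X0 := D.r1_Y1
  r1_Y1 := D.r0_X0
  loc0 := D.loc1
  loc1 := D.loc0

theorem swap_mem_ker_d (D : CechOps A N0 N1 N01) (m : ℕ) {p : N0 × N1}
    (hp : p ∈ LinearMap.ker (D.d m)) : (p.2, p.1) ∈ LinearMap.ker ((cechSwap D).d m) := by
  rw [CechOps.mem_ker_d] at hp ⊢
  show D.r1 p.2 = (D.Tinv ^ m) (D.r0 p.1)
  rw [hp, D.Tinv_pow_T_pow_apply]

/-- A uniform exponent clearing the denominators of finitely many elements. -/
theorem exists_pow_r1_eq_r0 (D : CechOps A N0 N1 N01) {n : ℕ} (g : Fin n → N1) :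
    ∃ K : ℕ, ∀ j, ∃ a : N0, (D.T ^ K) (D.r1 (g j)) = D.r0 a := by
  choose k a hka using fun j => D.loc0 (D.r1 (g j))
  refine ⟨Finset.univ.sup k, fun j => ⟨(D.X0 ^ (Finset.univ.sup k - k j)) (a j), ?_⟩⟩
  have hle : k j ≤ Finset.univ.sup k := Finset.le_sup (Finset.mem_univ j)
  rw [D.r0_X0_pow, ← hka j, ← Module.End.mul_apply, ← pow_add, Nat.sub_add_cancel hle]

/-- **Degree bound, first chart.** -/
theorem exists_fg_fst (D : CechOps A N0 N1 N01) (h0 : IsFGProj D.X0) (h1 : IsFGProj D.Y1)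
    (hr0 : Function.Injective D.r0) (m : ℕ) :
    ∃ M0 : Submodule A N0, M0.FG ∧ ∀ p : N0 × N1, p ∈ LinearMap.ker (D.d m) → p.1 ∈ M0 := by
  obtain ⟨n0, ι0, π0, hπι0, hι0, hπ0⟩ := h0
  obtain ⟨n1, ι1, π1, hπι1, hι1, hπ1⟩ := h1
  -- generators of `N1` and their numerators in `N0`
  obtain ⟨K, hK⟩ := exists_pow_r1_eq_r0 D fun j : Fin n1 => π1 (Pi.single j (1 : A[X]))
  choose a0 ha0 using hK
  -- a uniform degree bound for the numerators
  have hD : ∃ d, ∀ j, ι0 (a0 j) ∈ degLE A n0 d := by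
    choose e he using fun j => exists_mem_degLE (ι0 (a0 j))
    exact ⟨Finset.univ.sup e, fun j => degLE_mono (Finset.le_sup (Finset.mem_univ j)) (he j)⟩
  obtain ⟨d, hd⟩ := hD
  refine ⟨(degLE A n0 (d + m)).map π0, (degLE_fg n0 (d + m)).map π0, ?_⟩
  rintro ⟨a, b⟩ hab
  rw [CechOps.mem_ker_d] at hab
  simp only at hab
  -- the degree of `b`
  obtain ⟨e, he⟩ := exists_mem_degLE (ι1 b)
  -- key claim: `T^e T^K r1 b` is the restriction of an element of degree `≤ d + e`
  have key : degLE A n1 e ≤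
      (((degLE A n0 (d + e)).comap ι0).map D.r0).comap ((D.T ^ e) ∘ₗ (D.T ^ K) ∘ₗ D.r1 ∘ₗ π1) := by
    refine degLE_le_comap _ _ fun j k hk => ?_
    simp only [LinearMap.coe_comp, Function.comp_apply]
    rw [π_pow_smul hπ1, D.r1_Y1_pow]
    refine ⟨(D.X0 ^ (e - k)) (a0 j), ?_, ?_⟩
    · rw [SetLike.mem_coe, Submodule.mem_comap, ι_pow_apply hι0]
      exact degLE_mono (by omega) (X_pow_smul_mem_degLE (e - k) (hd j))
    · rw [D.r0_X0_pow, ← ha0 j]
      have hcomm : (D.T ^ K) ((D.Tinv ^ k) (D.r1 (π1 (Pi.single j 1)))) =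
          (D.Tinv ^ k) ((D.T ^ K) (D.r1 (π1 (Pi.single j 1)))) := by
        rw [← Module.End.mul_apply, ← Module.End.mul_apply,
          (D.commute_T_Tinv.pow_pow K k).eq]
      rw [hcomm]
      conv_rhs => rw [← Nat.sub_add_cancel hk, pow_add, Module.End.mul_apply,
        D.T_pow_Tinv_pow_apply]
  obtain ⟨a', ha', hra'⟩ := key he
  rw [SetLike.mem_coe, Submodule.mem_comap] at ha'
  simp only [LinearMap.coe_comp, Function.comp_apply] at hra'
  have hb : π1 (ι1 b) = b := LinearMap.congr_fun hπι1 b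
  rw [hb] at hra'
  -- compare in `N01` and use injectivity of `r0`
  have hEq : (D.X0 ^ (e + K)) a = (D.X0 ^ m) a' := by
    apply hr0
    rw [D.r0_X0_pow, D.r0_X0_pow, hab, hra']
    simp only [← Module.End.mul_apply, ← pow_add]
    congr 2
    omega
  have h1 : (X ^ (e + K) : A[X]) • ι0 a ∈ degLE A n0 ((d + m) + (e + K)) := by
    rw [← ι_pow_apply hι0, hEq, ι_pow_apply hι0]
    exact degLE_mono (by omega) (X_pow_smul_mem_degLE m ha')
  have h2 : ι0 a ∈ degLE A n0 (d + m) := mem_degLE_of_X_pow_smul_mem _ h1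
  exact ⟨ι0 a, h2, LinearMap.congr_fun hπι0 a⟩

/-- **K1a (degree bound).** `H⁰(L(m∞))` is contained in a finitely generated `A`-submodule.
(Exact statement of `CechSkel.exists_fg_ge_H0`.) -/
theorem exists_fg_ge_H0 (D : CechOps A N0 N1 N01) (h0 : IsFGProj D.X0) (h1 : IsFGProj D.Y1)
    (hr0 : Function.Injective D.r0) (hr1 : Function.Injective D.r1)
    (m : ℕ) : ∃ M : Submodule A (N0 × N1), M.FG ∧ D.H0 m ≤ M := by
  obtain ⟨M0, hM0, h0'⟩ := exists_fg_fst D h0 h1 hr0 m
  obtain ⟨M1, hM1, h1'⟩ := exists_fg_fst (cechSwap D) h1 h0 hr1 m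
  refine ⟨M0.prod M1, hM0.prod hM1, fun p hp => ⟨h0' p hp, ?_⟩⟩
  exact h1' (p.2, p.1) (swap_mem_ker_d D m hp)

end Fermat.Agent.S25.H850
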