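import Fermat.Agent.S25.H370.CechK6Full

/-!
# S25 / block DEGREE, leaf D9 (operator form): the Euler characteristic is locally constant

For a two-chart Čech datum `D` over a ring `A` (charts retracts of `A[X]^n`, injective
restrictions) the Euler characteristic of the fibres
`K ↦ dim ker (K ⊗ d 0) - dim coker (K ⊗ d 0)` (`K` any field over `A`) is finite and is given by a
locally constant function on `Spec A`: the difference of the ranks of the two finitely generated
projective modules `H⁰(L(m∞))` and `N1 / y^m N1` of the finite model (K6).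
-/

set_option autoImplicit false

namespace Fermat.Agent.S25.H850

open TensorProduct Fermat.Agent.S25.H10

universe u v w

/-- Index of a linear map between finite-dimensional spaces. -/
theorem finrank_ker_sub_finrank_coker {K : Type*} [Field K] {V W : Type*} [AddCommGroup V]
    [Module K V] [AddCommGroup W] [Module K W] [FiniteDimensional K V] [FiniteDimensional K W]
    (f : V →ₗ[K] W) :
    (Module.finrank K (LinearMap.ker f) : ℤ) - Module.finrank K (W ⧸ LinearMap.range f) =
      (Module.finrank K V : ℤ) - Module.finrank K W := by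
  have h1 := LinearMap.finrank_range_add_finrank_ker f
  have h2 := Submodule.finrank_quotient_add_finrank (LinearMap.range f)
  omega

/-- The dimension of a fibre of a finitely generated projective module is its rank at the
corresponding point. -/
theorem finrank_tensor_eq_rankAtStalk {A : Type u} [CommRing A] (P : Type v) [AddCommGroup P]
    [Module A P] [Module.Finite A P] [Module.Projective A P]
    (K : Type w) [Field K] [Algebra A K] :
    Module.finrank K (K ⊗[A] P) =
      Module.rankAtStalk P ⟨RingHom.ker (algebraMap A K), RingHom.ker_isPrime _⟩ := by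
  have h := Module.rankAtStalk_baseChange (R := A) (M := P) (S := K) (⊥ : PrimeSpectrum K)
  rw [Module.rankAtStalk_eq_finrank_of_free] at h
  simp only [Pi.natCast_apply, Nat.cast_id] at h
  rw [h]
  congr 1

variable {A : Type u} [CommRing A] {N0 N1 N01 : Type v}
  [AddCommGroup N0] [AddCommGroup N1] [AddCommGroup N01]
  [Module A N0] [Module A N1] [Module A N01]

/-- **D9 (operator form).** The Euler characteristic of the fibres of a two-chart Čech datum is
finite and locally constant on `Spec A`. -/
theorem exists_isLocallyConstant_euler (D : CechOps A N0 N1 N01)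
    (h0 : IsFGProj D.X0) (h1 : IsFGProj D.Y1)
    (hr0 : Function.Injective D.r0) (hr1 : Function.Injective D.r1) :
    ∃ f : PrimeSpectrum A → ℤ, IsLocallyConstant f ∧
      ∀ (K : Type w) [Field K] [Algebra A K],
        Module.Finite K (LinearMap.ker ((D.d 0).baseChange K)) ∧
        Module.Finite K ((K ⊗[A] N01) ⧸ LinearMap.range ((D.d 0).baseChange K)) ∧
        (Module.finrank K (LinearMap.ker ((D.d 0).baseChange K)) : ℤ) -
            Module.finrank K ((K ⊗[A] N01) ⧸ LinearMap.range ((D.d 0).baseChange K)) =
          f ⟨RingHom.ker (algebraMap A K), RingHom.ker_isPrime _⟩ := by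
  obtain ⟨m0, hm0⟩ := Fermat.Agent.S25.H370.exists_forall_finite_model D h0 h1 hr0 hr1
  obtain ⟨-, hP1, hP2, hQ1, hQ2, hbc⟩ := hm0 m0 le_rfl
  have : Module.FinitePresentation A (D.H0 m0) := Module.finitePresentation_of_projective _ _
  have : Module.FinitePresentation A (N1 ⧸ LinearMap.range (D.Y1 ^ m0)) :=
    Module.finitePresentation_of_projective _ _
  refine ⟨fun p => (Module.rankAtStalk (D.H0 m0) p : ℤ) -
    (Module.rankAtStalk (N1 ⧸ LinearMap.range (D.Y1 ^ m0)) p : ℤ), ?_, ?_⟩
  · have hc : IsLocallyConstant (fun n : ℕ => (n : ℤ)) := IsLocallyConstant.of_discrete _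
    exact ((Module.isLocallyConstant_rankAtStalk (R := A) (M := D.H0 m0)).comp _).sub
      ((Module.isLocallyConstant_rankAtStalk (R := A)
        (M := N1 ⧸ LinearMap.range (D.Y1 ^ m0))).comp _)
  · intro K _ _
    obtain ⟨⟨e1⟩, ⟨e2⟩⟩ := hbc K
    have hf1 : Module.Finite K (LinearMap.ker ((D.d 0).baseChange K)) :=
      Module.Finite.equiv e1
    have hf2 : Module.Finite K ((K ⊗[A] N01) ⧸ LinearMap.range ((D.d 0).baseChange K)) :=
      Module.Finite.equiv e2
    refine ⟨hf1, hf2, ?_⟩
    rw [← e1.finrank_eq, ← e2.finrank_eq, finrank_ker_sub_finrank_coker,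
      finrank_tensor_eq_rankAtStalk, finrank_tensor_eq_rankAtStalk]

end Fermat.Agent.S25.H850
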