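import Fermat.Agent.S25.H370.CechK6Full
import Fermat.Agent.S25.H791.SupportBaseChange

/-!
# S25 / block DEGREE, leaf D8 (operator form): fibrewise vanishing of `H¹`

For a two-chart Čech datum `D` over a ring `A`:

* `map_annihilator_H1_eq_top_iff`: for every `A`-algebra `A'`, the base change of the twisted
  differential `d m` to `A'` is surjective iff the annihilator of `H¹(L(m∞))` generates the unit
  ideal of `A'` (the vanishing locus of `H¹` is open, compatibly with base change);
* `d_surjective_of_forall_residueField`: if `H¹(L(m∞))` vanishes on all closed fibres, it vanishes;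
* `H0_of_forall_residueField`: then `H⁰(L(m∞))` is finitely generated projective, commutes
  with every base change, and its rank at a point is the dimension of `H⁰` of the fibre.
-/

set_option autoImplicit false

namespace Fermat.Agent.S25.H850

open TensorProduct Fermat.Agent.S25.H10

universe u v w

variable {A : Type u} [CommRing A] {N0 N1 N01 : Type v}
  [AddCommGroup N0] [AddCommGroup N1] [AddCommGroup N01]
  [Module A N0] [Module A N1] [Module A N01]

/-- **Vanishing locus of `H¹`.** The base change of `d m` to `A'` is surjective iff the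
annihilator of `H¹(L(m∞))` generates the unit ideal of `A'`. -/
theorem map_annihilator_H1_eq_top_iff (D : CechOps A N0 N1 N01) (h0 : IsFG D.X0) (m : ℕ)
    (A' : Type w) [CommRing A'] [Algebra A A'] :
    Function.Surjective ((D.d m).baseChange A') ↔
      (Module.annihilator A (D.H1 m)).map (algebraMap A A') = ⊤ := by
  have : Module.Finite A (D.H1 m) := Fermat.Agent.S25.H790.H1_finite D h0 m
  rw [Fermat.Agent.S25.H791.baseChange_surjective_iff_subsingleton,
    Fermat.Agent.S25.H791.subsingleton_tensorProduct_iff]

/-- If the annihilator of `H¹` is the unit ideal then `d m` is surjective. -/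
theorem d_surjective_of_annihilator_eq_top (D : CechOps A N0 N1 N01) (m : ℕ)
    (h : Module.annihilator A (D.H1 m) = ⊤) : Function.Surjective (D.d m) := by
  intro z
  have h1 : (1 : A) ∈ Module.annihilator A (D.H1 m) := by rw [h]; trivial
  have h2 := Module.mem_annihilator.mp h1 (Submodule.Quotient.mk z : D.H1 m)
  rw [one_smul, Submodule.Quotient.mk_eq_zero] at h2
  exact h2

/-- **D8a.** If `H¹(L(m∞))` vanishes on every closed fibre then it vanishes. -/
theorem d_surjective_of_forall_residueField (D : CechOps A N0 N1 N01) (h0 : IsFG D.X0) (m : ℕ)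
    (h : ∀ p : Ideal A, ∀ _ : p.IsMaximal,
      Function.Surjective ((D.d m).baseChange p.ResidueField)) :
    Function.Surjective (D.d m) := by
  apply d_surjective_of_annihilator_eq_top
  by_contra hne
  obtain ⟨p, hp, hle⟩ := Ideal.exists_le_maximal _ hne
  have h1 := (map_annihilator_H1_eq_top_iff D h0 m p.ResidueField).mp (h p hp)
  have h2 : (Module.annihilator A (D.H1 m)).map (algebraMap A p.ResidueField) = ⊥ := by
    rw [Ideal.map_eq_bot_iff_le_ker, Ideal.ker_algebraMap_residueField]
    exact hle
  rw [h2] at h1
  exact bot_ne_top h1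

/-- **D8b.** If `H¹(L(m∞))` vanishes on every closed fibre then `d m` is surjective,
`H⁰(L(m∞))` is a finitely generated projective `A`-module and commutes with every base change. -/
theorem H0_of_forall_residueField (D : CechOps A N0 N1 N01)
    (h0 : IsFGProj D.X0) (h1 : IsFGProj D.Y1)
    (hr0 : Function.Injective D.r0) (hr1 : Function.Injective D.r1) (m : ℕ)
    (h : ∀ p : Ideal A, ∀ _ : p.IsMaximal,
      Function.Surjective ((D.d m).baseChange p.ResidueField)) :
    Function.Surjective (D.d m) ∧ Module.Finite A (D.H0 m) ∧ Module.Projective A (D.H0 m) ∧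
      ∀ (A' : Type w) [CommRing A'] [Algebra A A'],
        Function.Surjective ((D.d m).baseChange A') ∧
        Function.Injective ((D.H0 m).subtype.baseChange A') ∧
          LinearMap.range ((D.H0 m).subtype.baseChange A') =
            LinearMap.ker ((D.d m).baseChange A') := by
  have hs := d_surjective_of_forall_residueField D (isFG_of_isFGProj h0) m h
  obtain ⟨-, hf, hp⟩ :=
    Fermat.Agent.S25.H370.H0_finite_projective_of_surjective D h0 h1 hr0 hr1 m hs
  refine ⟨hs, hf, hp, fun A' _ _ => ⟨?_, ?_⟩⟩
  · exact LinearMap.baseChange_surjective A' hs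
  · exact Fermat.Agent.S25.H370.H0_baseChange_bijective A' D h0 hr0 m hs

/-- **D8c (rank).** If `d m` is surjective, the dimension of `H⁰` of the fibre at a field `K` over
`A` is the rank of the projective module `H⁰(L(m∞))` at the corresponding point. -/
theorem finrank_ker_baseChange_eq_rankAtStalk (D : CechOps A N0 N1 N01)
    (h0 : IsFGProj D.X0) (h1 : IsFGProj D.Y1)
    (hr0 : Function.Injective D.r0) (hr1 : Function.Injective D.r1) (m : ℕ)
    (hs : Function.Surjective (D.d m)) (K : Type w) [Field K] [Algebra A K] :
    Module.finrank K (LinearMap.ker ((D.d m).baseChange K)) =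
      Module.rankAtStalk (D.H0 m) ⟨RingHom.ker (algebraMap A K), RingHom.ker_isPrime _⟩ := by
  obtain ⟨-, hf, hp⟩ :=
    Fermat.Agent.S25.H370.H0_finite_projective_of_surjective D h0 h1 hr0 hr1 m hs
  obtain ⟨hinj, hrange⟩ := Fermat.Agent.S25.H370.H0_baseChange_bijective K D h0 hr0 m hs
  have e : (K ⊗[A] D.H0 m) ≃ₗ[K] LinearMap.ker ((D.d m).baseChange K) :=
    (LinearEquiv.ofInjective _ hinj).trans (LinearEquiv.ofEq _ _ hrange)
  rw [← e.finrank_eq]
  have h := Module.rankAtStalk_baseChange (R := A) (M := D.H0 m) (S := K) (⊥ : PrimeSpectrum K)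
  rw [Module.rankAtStalk_eq_finrank_of_free] at h
  simp only [Pi.natCast_apply, Nat.cast_id] at h
  rw [h]
  congr 1

end Fermat.Agent.S25.H850
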