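import Mathlib

/-!
# S25 / ALGCHARTS, leaf COV1 (field points): commutative-algebra lemmas (Mathlib only)

* `exists_smul_sub_mem_of_notMem`: the fibre `N / 𝔪 N` of an invertible module at a maximal
  ideal is one-dimensional, in elementary form;
* `smul_top_ne_top_of_invertible`: `𝔪 N ≠ N`;
* `mul_smul_top_eq_inf`, `prod_smul_top_eq_iInf`: `(∏ 𝔪_j) N = ⋂ 𝔪_j N` for pairwise comaximal
  ideals;
* `finrank_le_finrank_inf_add_one_of_forall`: a subspace `Z` modulo which any two vectors are
  proportional has codimension `≤ 1` in every subspace;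
* `eq_top_of_forall_isMaximal_sup_smul`: Nakayama in the form "a submodule of a finite module
  which is not contained in any `𝔪 N` is everything" (see the statement);
* `finite_setOf_isMaximal_mem_of_finite_quotient`: finitely many maximal ideals contain `y` if
  `R / (y)` is finite-dimensional.
-/

set_option autoImplicit false

namespace Fermat.Agent.S25.H850

open Module TensorProduct

section Fibre

variable {R : Type*} [CommRing R] {N : Type*} [AddCommGroup N] [Module R N]

/-- The canonical map `N → (R ⧸ 𝔪) ⊗ N` kills exactly `𝔪 N`. -/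
theorem one_tmul_eq_zero_iff_mem_smul_top (m : Ideal R) (b : N) :
    ((1 : R ⧸ m) ⊗ₜ[R] b = 0) ↔ b ∈ (m • ⊤ : Submodule R N) := by
  obtain ⟨e, h⟩ : ∃ e : ((R ⧸ m) ⊗[R] N) ≃ₗ[R] N ⧸ (m • ⊤ : Submodule R N),
      e ((1 : R ⧸ m) ⊗ₜ[R] b) = Submodule.Quotient.mk b := by
    have h1 := TensorProduct.quotTensorEquivQuotSMul_mk_tmul (M := N) m (1 : R) b
    rw [one_smul, map_one] at h1
    exact ⟨_, h1⟩
  constructor
  · intro h0
    rw [h0, map_zero] at h
    exact (Submodule.Quotient.mk_eq_zero _).mp h.symm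
  · intro hb
    apply e.injective
    rw [h, map_zero]
    exact (Submodule.Quotient.mk_eq_zero _).mpr hb

variable [Module.Invertible R N]

/-- **One-dimensionality of the fibre.** If `b ∉ 𝔪 N` then every `c` is congruent to a multiple
of `b` modulo `𝔪 N`. -/
theorem exists_smul_sub_mem_of_notMem (m : Ideal R) [hm : m.IsMaximal] {b : N}
    (hb : b ∉ (m • ⊤ : Submodule R N)) (c : N) :
    ∃ r : R, c - r • b ∈ (m • ⊤ : Submodule R N) := by
  let _ : Field (R ⧸ m) := Ideal.Quotient.field m
  have hrank : finrank (R ⧸ m) ((R ⧸ m) ⊗[R] N) = 1 := Module.Invertible.finrank_eq_one _ _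
  have hb' : ((1 : R ⧸ m) ⊗ₜ[R] b) ≠ 0 := fun h => hb ((one_tmul_eq_zero_iff_mem_smul_top m b).mp h)
  obtain ⟨f, hf⟩ := (finrank_eq_one_iff_of_nonzero' _ hb').mp hrank ((1 : R ⧸ m) ⊗ₜ[R] c)
  obtain ⟨r, rfl⟩ := Ideal.Quotient.mk_surjective f
  refine ⟨r, ?_⟩
  rw [← one_tmul_eq_zero_iff_mem_smul_top, TensorProduct.tmul_sub, sub_eq_zero, ← hf,
    TensorProduct.tmul_smul, TensorProduct.smul_tmul']
  congr 1

/-- `𝔪 N ≠ N` for an invertible module. -/
theorem smul_top_ne_top_of_invertible (m : Ideal R) [hm : m.IsMaximal] :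
    (m • ⊤ : Submodule R N) ≠ ⊤ := by
  let _ : Field (R ⧸ m) := Ideal.Quotient.field m
  have hrank : finrank (R ⧸ m) ((R ⧸ m) ⊗[R] N) = 1 := Module.Invertible.finrank_eq_one _ _
  intro htop
  have hsub : Subsingleton ((R ⧸ m) ⊗[R] N) := by
    refine ⟨fun z w => ?_⟩
    have key : ∀ z : (R ⧸ m) ⊗[R] N, z = 0 := by
      intro z
      induction z using TensorProduct.induction_on with
      | zero => rfl
      | tmul a b =>
        have hb : b ∈ (m • ⊤ : Submodule R N) := by rw [htop]; trivial
        have h1 := (one_tmul_eq_zero_iff_mem_smul_top m b).mpr hb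
        have : a ⊗ₜ[R] b = a • ((1 : R ⧸ m) ⊗ₜ[R] b) := by
          rw [TensorProduct.smul_tmul', smul_eq_mul, mul_one]
        rw [this, h1, smul_zero]
      | add z w hz hw => rw [hz, hw, add_zero]
    rw [key z, key w]
  rw [finrank_zero_of_subsingleton] at hrank
  exact zero_ne_one hrank

end Fibre

section Comaximal

variable {R : Type*} [CommRing R] {N : Type*} [AddCommGroup N] [Module R N]

/-- `(I J) N = I N ∩ J N` for comaximal ideals. -/
theorem mul_smul_top_eq_inf (I J : Ideal R) (h : I ⊔ J = ⊤) :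
    ((I * J) • ⊤ : Submodule R N) = (I • ⊤) ⊓ (J • ⊤) := by
  apply le_antisymm
  · refine le_inf ?_ ?_
    · exact Submodule.smul_mono_left Ideal.mul_le_left
    · exact Submodule.smul_mono_left Ideal.mul_le_right
  · rintro a ⟨haI, haJ⟩
    obtain ⟨u, hu, v, hv, huv⟩ := Submodule.mem_sup.mp (h ▸ Submodule.mem_top : (1 : R) ∈ I ⊔ J)
    have ha : a = u • a + v • a := by rw [← add_smul, huv, one_smul]
    rw [ha]
    refine Submodule.add_mem _ ?_ ?_
    · -- `u • a ∈ I (J N) = (I J) N`
      have : u • a ∈ (I • (J • ⊤ : Submodule R N) : Submodule R N) :=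
        Submodule.smul_mem_smul hu haJ
      rwa [← Submodule.mul_smul] at this
    · have : v • a ∈ (J • (I • ⊤ : Submodule R N) : Submodule R N) :=
        Submodule.smul_mem_smul hv haI
      rwa [← Submodule.mul_smul, mul_comm] at this

/-- `(∏ 𝔪_j) N = ⋂ 𝔪_j N` for pairwise distinct maximal ideals. -/
theorem prod_smul_top_eq_iInf {ι : Type*} (S : Finset ι) (m : ι → Ideal R)
    (hmax : ∀ j, (m j).IsMaximal) (hinj : Function.Injective m) :
    ((∏ j ∈ S, m j) • ⊤ : Submodule R N) = ⨅ j ∈ S, (m j • ⊤ : Submodule R N) := by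
  classical
  induction S using Finset.induction_on with
  | empty => simp
  | insert a S ha ih =>
    rw [Finset.prod_insert ha, Finset.iInf_insert, ← ih]
    apply mul_smul_top_eq_inf
    -- `𝔪_a` and `∏_{j ∈ S} 𝔪_j` are comaximal
    by_contra hne
    have hle : (∏ j ∈ S, m j) ≤ m a := by
      have h1 : m a ≤ m a ⊔ ∏ j ∈ S, m j := le_sup_left
      have h2 := (hmax a).eq_of_le hne h1
      rw [h2]
      exact le_sup_right
    obtain ⟨j, hjS, hj⟩ := ((hmax a).isPrime.prod_le).mp hle
    have h3 : m j = m a := (hmax j).eq_of_le (hmax a).ne_top hj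
    exact ha (hinj h3 ▸ hjS)

end Comaximal

section Codim

variable {K : Type*} [Field K] {V : Type*} [AddCommGroup V] [Module K V] [FiniteDimensional K V]

/-- A subspace `Z` modulo which any vector is proportional to any vector outside `Z` has
codimension `≤ 1` in every subspace. -/
theorem finrank_le_finrank_inf_add_one_of_forall (Z : Submodule K V)
    (h : ∀ v w : V, w ∉ Z → ∃ c : K, v - c • w ∈ Z) (U : Submodule K V) :
    finrank K U ≤ finrank K (U ⊓ Z : Submodule K V) + 1 := by
  by_cases hU : U ≤ Z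
  · rw [inf_eq_left.mpr hU]
    omega
  · obtain ⟨w, hwU, hwZ⟩ := Set.not_subset.mp hU
    have hle : U ≤ (U ⊓ Z) ⊔ Submodule.span K {w} := by
      intro u hu
      obtain ⟨c, hc⟩ := h u w hwZ
      have : u = (u - c • w) + c • w := by abel
      rw [this]
      refine Submodule.add_mem_sup ⟨U.sub_mem hu (U.smul_mem c hwU), hc⟩ ?_
      exact Submodule.smul_mem _ _ (Submodule.mem_span_singleton_self w)
    calc finrank K U ≤ finrank K ((U ⊓ Z) ⊔ Submodule.span K {w} : Submodule K V) :=
          Submodule.finrank_mono hle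
      _ ≤ finrank K (U ⊓ Z : Submodule K V) + finrank K (Submodule.span K {w}) :=
          Submodule.finrank_add_le_finrank_add_finrank _ _
      _ ≤ finrank K (U ⊓ Z : Submodule K V) + 1 := by
          have hw0 : w ≠ 0 := fun h0 => hwZ (h0 ▸ Z.zero_mem)
          rw [finrank_span_singleton hw0]

end Codim

section Nakayama

variable {R : Type*} [CommRing R] {N : Type*} [AddCommGroup N] [Module R N]

/-- **Nakayama.** Let `N` be a finite module and `M'` a submodule.  If `M' + 𝔪 N = N` for every
maximal ideal `𝔪` containing the annihilator of `N / M'`, then `M' = N`. -/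
theorem eq_top_of_forall_isMaximal_sup_smul [Module.Finite R N] (M' : Submodule R N)
    (h : ∀ m : Ideal R, m.IsMaximal → Module.annihilator R (N ⧸ M') ≤ m →
      M' ⊔ (m • ⊤ : Submodule R N) = ⊤) : M' = ⊤ := by
  by_contra hne
  have hann : Module.annihilator R (N ⧸ M') ≠ ⊤ := by
    intro htop
    apply hne
    rw [eq_top_iff]
    intro a _
    have h1 : (1 : R) ∈ Module.annihilator R (N ⧸ M') := by rw [htop]; trivial
    have h2 := Module.mem_annihilator.mp h1 (Submodule.Quotient.mk a)
    rw [one_smul] at h2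
    exact (Submodule.Quotient.mk_eq_zero _).mp h2
  obtain ⟨m, hm, hle⟩ := Ideal.exists_le_maximal _ hann
  have hsup := h m hm hle
  -- `𝔪 (N/M') = N/M'`
  have htop : (⊤ : Submodule R (N ⧸ M')) ≤ m • (⊤ : Submodule R (N ⧸ M')) := by
    intro z _
    obtain ⟨a, rfl⟩ := Submodule.Quotient.mk_surjective M' z
    have ha : a ∈ M' ⊔ (m • ⊤ : Submodule R N) := by rw [hsup]; trivial
    obtain ⟨b, hb, c, hc, rfl⟩ := Submodule.mem_sup.mp ha
    have h1 : (Submodule.Quotient.mk (b + c) : N ⧸ M') = M'.mkQ c := by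
      rw [Submodule.Quotient.mk_add, (Submodule.Quotient.mk_eq_zero _).mpr hb, zero_add]
      rfl
    rw [h1]
    have h2 : M'.mkQ c ∈ Submodule.map M'.mkQ (m • ⊤ : Submodule R N) :=
      Submodule.mem_map_of_mem hc
    rw [Submodule.map_smul''] at h2
    exact Submodule.smul_mono le_rfl le_top h2
  obtain ⟨r, hr1, hr2⟩ := Submodule.exists_sub_one_mem_and_smul_eq_zero_of_fg_of_le_smul m
    (⊤ : Submodule R (N ⧸ M')) Module.Finite.fg_top htop
  have hrann : r ∈ Module.annihilator R (N ⧸ M') :=
    Module.mem_annihilator.mpr fun z => hr2 z Submodule.mem_top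
  have hrm : r ∈ m := hle hrann
  have : (1 : R) ∈ m := by
    have := m.sub_mem hrm hr1
    simpa using this
  exact hm.ne_top ((Ideal.eq_top_iff_one m).mpr this)

end Nakayama

section FiniteMax

/-- If `R ⧸ (y)` is finite-dimensional over a field `K`, only finitely many maximal ideals of
`R` contain `y`. -/
theorem finite_setOf_isMaximal_mem_of_finite_quotient {K R : Type*} [Field K] [CommRing R]
    [Algebra K R] (y : R) [Module.Finite K (R ⧸ Ideal.span {y})] :
    {P : Ideal R | P.IsMaximal ∧ y ∈ P}.Finite := by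
  have : IsArtinianRing (R ⧸ Ideal.span {y}) := IsArtinianRing.of_finite K _
  have hfin : Finite (MaximalSpectrum (R ⧸ Ideal.span {y})) := inferInstance
  let f : {P : Ideal R | P.IsMaximal ∧ y ∈ P} → MaximalSpectrum (R ⧸ Ideal.span {y}) :=
    fun P => ⟨P.1.map (Ideal.Quotient.mk (Ideal.span {y})), by
      have hle : Ideal.span {y} ≤ P.1 := (Ideal.span_singleton_le_iff_mem _).mpr P.2.2
      have hmax : P.1.IsMaximal := P.2.1
      exact Ideal.IsMaximal.map_of_surjective_of_ker_le Ideal.Quotient.mk_surjective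
        (by rwa [Ideal.mk_ker])⟩
  have hf : Function.Injective f := by
    intro P Q hPQ
    have h1 : P.1.map (Ideal.Quotient.mk (Ideal.span {y})) =
        Q.1.map (Ideal.Quotient.mk (Ideal.span {y})) := congrArg MaximalSpectrum.asIdeal hPQ
    have hP : Ideal.span {y} ≤ P.1 := (Ideal.span_singleton_le_iff_mem _).mpr P.2.2
    have hQ : Ideal.span {y} ≤ Q.1 := (Ideal.span_singleton_le_iff_mem _).mpr Q.2.2
    apply Subtype.ext
    have h2 := congrArg (Ideal.comap (Ideal.Quotient.mk (Ideal.span {y}))) h1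
    rwa [Ideal.comap_map_of_surjective _ Ideal.Quotient.mk_surjective,
      Ideal.comap_map_of_surjective _ Ideal.Quotient.mk_surjective,
      ← RingHom.ker_eq_comap_bot, Ideal.mk_ker, sup_eq_left.mpr hP, sup_eq_left.mpr hQ] at h2
  exact Set.finite_coe_iff.mp (Finite.of_injective f hf)

end FiniteMax

end Fermat.Agent.S25.H850
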