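import Mathlib

/-!
# S25 / block ALGCHARTS, leaf C6 (cover), linear-algebra core: generic choice of points

`V` is a finite-dimensional space of sections (`dim V = m + 1`), `Z q ⊆ V` the subspace of
sections vanishing at the point `q` (`q` ranging over an infinite set of points), every `Z q`
has codimension `≤ 1` in any subspace, and a nonzero section vanishes at finitely many points.
Then one can choose `m` distinct points `q_1, …, q_m` (avoiding any given finite set) such that
the sections vanishing at all of them form a line, and this line meets each of finitely many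
given proper subspaces `W` (sections vanishing at a point at infinity) trivially.
-/

set_option autoImplicit false

namespace Fermat.Agent.S25.H850

open Module Submodule

variable {K : Type*} [Field K] {V : Type*} [AddCommGroup V] [Module K V]
  [FiniteDimensional K V] {Pts : Type*}

/-- Intersecting with a subspace of codimension `≤ 1` which misses a given vector of `U` drops
the dimension by exactly one. -/
theorem finrank_inf_of_notMem (U Z : Submodule K V)
    (hcodim : finrank K U ≤ finrank K (U ⊓ Z : Submodule K V) + 1)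
    {s : V} (hsU : s ∈ U) (hsZ : s ∉ Z) :
    finrank K (U ⊓ Z : Submodule K V) + 1 = finrank K U := by
  have hlt : U ⊓ Z < U := by
    refine lt_of_le_of_ne inf_le_left fun h => hsZ ?_
    have : s ∈ U ⊓ Z := by rw [h]; exact hsU
    exact this.2
  have := Submodule.finrank_lt_finrank_of_lt hlt
  omega

/-- **Generic choice of points** (finset form). -/
theorem exists_finset_points [Infinite Pts] (Z : Pts → Submodule K V)
    (hcodim : ∀ (q : Pts) (U : Submodule K V),
      finrank K U ≤ finrank K (U ⊓ Z q : Submodule K V) + 1)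
    (hfin : ∀ s : V, s ≠ 0 → {q | s ∈ Z q}.Finite)
    (H : Finset (Submodule K V)) (hH : ∀ W ∈ H, W ≠ ⊤)
    (avoid : Set Pts) (havoid : avoid.Finite)
    (m : ℕ) (hm : finrank K V = m + 1) :
    ∃ S : Finset Pts, S.card = m ∧ (∀ q ∈ S, q ∉ avoid) ∧
      finrank K (⨅ q ∈ S, Z q : Submodule K V) = 1 ∧
      ∀ W ∈ H, (⨅ q ∈ S, Z q) ⊓ W = ⊥ := by
  classical
  -- the inductive statement
  have key : ∀ j : ℕ, j ≤ m → ∃ S : Finset Pts, S.card = j ∧ (∀ q ∈ S, q ∉ avoid) ∧
      finrank K (⨅ q ∈ S, Z q : Submodule K V) + j = m + 1 ∧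
      ∀ W ∈ H, finrank K ((⨅ q ∈ S, Z q) ⊓ W : Submodule K V) + j ≤ m := by
    intro j
    induction j with
    | zero =>
      intro _
      have htop : (⨅ q ∈ (∅ : Finset Pts), Z q : Submodule K V) = ⊤ := by simp
      refine ⟨∅, rfl, by simp, ?_, fun W hW => ?_⟩
      · rw [htop, finrank_top, hm]
      · have h1 := Submodule.finrank_lt (hH W hW)
        rw [htop, top_inf_eq]
        omega
    | succ j ih =>
      intro hj
      obtain ⟨S, hcard, hav, hdim, hW⟩ := ih (by omega)
      set U : Submodule K V := ⨅ q ∈ S, Z q with hU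
      -- a nonzero vector of `U`
      have hUne : U ≠ ⊥ := by
        intro h
        rw [h, finrank_bot] at hdim
        omega
      obtain ⟨s, hsU, hs0⟩ := Submodule.exists_mem_ne_zero_of_ne_bot hUne
      -- a nonzero vector of each nonzero `U ⊓ W`
      have hex : ∀ W : Submodule K V, ∃ t : V, t ∈ U ⊓ W ∧ (U ⊓ W ≠ ⊥ → t ≠ 0) := by
        intro W
        by_cases h : U ⊓ W = ⊥
        · exact ⟨0, zero_mem _, fun h' => absurd h h'⟩
        · obtain ⟨t, ht, ht0⟩ := Submodule.exists_mem_ne_zero_of_ne_bot h
          exact ⟨t, ht, fun _ => ht0⟩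
      choose t ht ht0 using hex
      -- the finite set of bad points
      let bad : Set Pts := avoid ∪ (S : Set Pts) ∪ {q | s ∈ Z q} ∪
        ⋃ W ∈ H, {q | U ⊓ W ≠ ⊥ ∧ t W ∈ Z q}
      have hbad : bad.Finite := by
        refine ((havoid.union S.finite_toSet).union (hfin s hs0)).union ?_
        refine Set.Finite.biUnion H.finite_toSet fun W _ => ?_
        by_cases h : U ⊓ W = ⊥
        · have : {q | U ⊓ W ≠ ⊥ ∧ t W ∈ Z q} = ∅ := by
            ext q
            simp [h]
          rw [this]
          exact Set.finite_empty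
        · exact (hfin (t W) (ht0 W h)).subset fun q hq => hq.2
      obtain ⟨q', hq'⟩ := hbad.exists_notMem
      have hq1 : q' ∉ avoid := fun h => hq' (Or.inl (Or.inl (Or.inl h)))
      have hq2 : q' ∉ S := fun h => hq' (Or.inl (Or.inl (Or.inr h)))
      have hq3 : s ∉ Z q' := fun h => hq' (Or.inl (Or.inr h))
      have hq4 : ∀ W ∈ H, U ⊓ W ≠ ⊥ → t W ∉ Z q' := by
        intro W hWH hne h
        refine hq' (Or.inr ?_)
        simp only [Set.mem_iUnion]
        exact ⟨W, hWH, hne, h⟩
      have hinf : (⨅ q ∈ insert q' S, Z q : Submodule K V) = U ⊓ Z q' := by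
        rw [Finset.iInf_insert, inf_comm]
      refine ⟨insert q' S, ?_, ?_, ?_, ?_⟩
      · rw [Finset.card_insert_of_notMem hq2, hcard]
      · intro q hq
        rcases Finset.mem_insert.mp hq with rfl | hq
        · exact hq1
        · exact hav q hq
      · rw [hinf]
        have := finrank_inf_of_notMem U (Z q') (hcodim q' U) hsU hq3
        omega
      · intro W hWH
        rw [hinf]
        have hle := hW W hWH
        by_cases hne : U ⊓ W = ⊥
        · have h0 : (U ⊓ Z q') ⊓ W = ⊥ := by
            apply le_bot_iff.mp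
            rw [← hne]
            exact inf_le_inf_right _ inf_le_left
          rw [h0, finrank_bot]
          omega
        · have h1 := finrank_inf_of_notMem (U ⊓ W) (Z q') (hcodim q' (U ⊓ W)) (ht W)
            (hq4 W hWH hne)
          have h2 : (U ⊓ Z q') ⊓ W = (U ⊓ W) ⊓ Z q' := by
            rw [inf_assoc, inf_comm (Z q') W, ← inf_assoc]
          rw [h2]
          omega
  obtain ⟨S, hcard, hav, hdim, hW⟩ := key m le_rfl
  refine ⟨S, hcard, hav, by omega, fun W hWH => ?_⟩
  have := hW W hWH
  have h0 : finrank K ((⨅ q ∈ S, Z q) ⊓ W : Submodule K V) = 0 := by omega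
  exact Submodule.finrank_eq_zero.mp h0

/-- **Generic choice of points** (tuple form): `m` distinct points. -/
theorem exists_tuple_points [Infinite Pts] (Z : Pts → Submodule K V)
    (hcodim : ∀ (q : Pts) (U : Submodule K V),
      finrank K U ≤ finrank K (U ⊓ Z q : Submodule K V) + 1)
    (hfin : ∀ s : V, s ≠ 0 → {q | s ∈ Z q}.Finite)
    (H : Finset (Submodule K V)) (hH : ∀ W ∈ H, W ≠ ⊤)
    (avoid : Set Pts) (havoid : avoid.Finite)
    (m : ℕ) (hm : finrank K V = m + 1) :
    ∃ q : Fin m → Pts, Function.Injective q ∧ (∀ j, q j ∉ avoid) ∧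
      finrank K (⨅ j, Z (q j) : Submodule K V) = 1 ∧
      ∀ W ∈ H, (⨅ j, Z (q j)) ⊓ W = ⊥ := by
  classical
  obtain ⟨S, hcard, hav, hdim, hW⟩ := exists_finset_points Z hcodim hfin H hH avoid havoid m hm
  let e : Fin m ≃ S := (Finset.equivFinOfCardEq hcard).symm
  have hinf : (⨅ j, Z ((e j : Pts)) : Submodule K V) = ⨅ q ∈ S, Z q := by
    apply le_antisymm
    · refine le_iInf₂ fun q hq => ?_
      have := iInf_le (fun j => Z ((e j : Pts))) (e.symm ⟨q, hq⟩)
      simpa using this
    · refine le_iInf fun j => ?_
      exact iInf₂_le (f := fun q (_ : q ∈ S) => Z q) (e j : Pts) (e j).2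
  refine ⟨fun j => (e j : Pts), ?_, fun j => hav _ (e j).2, ?_, ?_⟩
  · intro i j hij
    exact e.injective (Subtype.ext hij)
  · rw [hinf]; exact hdim
  · intro W hWH
    rw [hinf]; exact hW W hWH

/-- The codimension hypothesis holds for kernels of linear maps to spaces of dimension `≤ 1`. -/
theorem finrank_le_finrank_inf_ker_add_one {E : Type*} [AddCommGroup E] [Module K E]
    [FiniteDimensional K E] (hE : finrank K E ≤ 1) (ev : V →ₗ[K] E) (U : Submodule K V) :
    finrank K U ≤ finrank K (U ⊓ LinearMap.ker ev : Submodule K V) + 1 := by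
  have h1 := LinearMap.finrank_range_add_finrank_ker (ev.domRestrict U)
  have h2 : finrank K (LinearMap.range (ev.domRestrict U)) ≤ 1 :=
    le_trans (Submodule.finrank_le _) hE
  have h3 : finrank K (LinearMap.ker (ev.domRestrict U)) =
      finrank K (U ⊓ LinearMap.ker ev : Submodule K V) := by
    have hmap : (LinearMap.ker (ev.domRestrict U)).map U.subtype = U ⊓ LinearMap.ker ev := by
      ext v
      simp only [Submodule.mem_map, LinearMap.mem_ker, LinearMap.domRestrict_apply,
        Submodule.subtype_apply, Subtype.exists, exists_and_right, exists_eq_right,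
        Submodule.mem_inf]
      constructor
      · rintro ⟨hv, h⟩; exact ⟨hv, h⟩
      · rintro ⟨hv, h⟩; exact ⟨hv, h⟩
    rw [← hmap]
    exact (Submodule.equivMapOfInjective U.subtype U.injective_subtype _).finrank_eq
  omega

end Fermat.Agent.S25.H850
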