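import Fermat.Agent.S25.H11.ACDefs
import Fermat.Agent.S25.H250.DegSec
import Fermat.Agent.S25.H190.ACDeg3
import Fermat.Agent.S25.H207.ChartCor
import Fermat.Agent.S25.H687.Points
import Fermat.Agent.S25.H850.Cov1Alg
import Fermat.Agent.S25.H850.GenericPoints

/-!
# S25 / ALGCHARTS, leaf COV1 (field points)

Over a field `K ⊇ k` every gluing datum `G` of degree `0` lies in stage `P2` of a chart index:
for every `n ≥ 1` with `H¹(G((n-1)E₀)) = 0 = H¹(G(nE₀))` and `m + g = n d` there are `m` distinct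
`k`-points `q` of `Spec B₀` (avoiding any given finite set) with `P2 x y n q G`.
-/

set_option autoImplicit false
set_option linter.unusedSectionVars false
set_option linter.style.haveILetI false

universe u

open scoped TensorProduct

namespace Fermat.Agent.S25.H850

open Fermat.Agent.S25 Fermat.Agent.S25.H11 Module

section Lin

variable {K : Type*} [Field K] {V : Type*} [AddCommGroup V] [Module K V] [FiniteDimensional K V]

/-- Intersecting `|S|` subspaces of codimension `≤ 1` drops the dimension by at most `|S|`. -/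
theorem finrank_le_finrank_iInf_add_card {ι : Type*} (Z : ι → Submodule K V)
    (hcodim : ∀ (i : ι) (U : Submodule K V),
      finrank K U ≤ finrank K (U ⊓ Z i : Submodule K V) + 1)
    (S : Finset ι) : finrank K V ≤ finrank K (⨅ i ∈ S, Z i : Submodule K V) + S.card := by
  classical
  induction S using Finset.induction_on with
  | empty =>
    have h : (⨅ i ∈ (∅ : Finset ι), Z i) = ⊤ := by simp
    rw [h, finrank_top]
    exact Nat.le_add_right _ _
  | insert a S ha ih =>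
    rw [Finset.iInf_insert, Finset.card_insert_of_notMem ha]
    have := hcodim a (⨅ i ∈ S, Z i)
    rw [inf_comm] at this
    omega

/-- If `m` conditions of codimension `≤ 1` cut a line out of a space of dimension `m + 1`, the
conditions are independent: for every `j` some vector satisfies all conditions but the `j`-th. -/
theorem exists_mem_forall_ne_notMem {m : ℕ} (Z : Fin m → Submodule K V)
    (hcodim : ∀ (i : Fin m) (U : Submodule K V),
      finrank K U ≤ finrank K (U ⊓ Z i : Submodule K V) + 1)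
    (hV : finrank K V = m + 1) (h1 : finrank K (⨅ j, Z j : Submodule K V) = 1) (j : Fin m) :
    ∃ s : V, (∀ i, i ≠ j → s ∈ Z i) ∧ s ∉ Z j := by
  classical
  set U : Submodule K V := ⨅ i ∈ (Finset.univ.erase j : Finset (Fin m)), Z i with hU
  have h2 := finrank_le_finrank_iInf_add_card Z hcodim (Finset.univ.erase j)
  rw [Finset.card_erase_of_mem (Finset.mem_univ j), Finset.card_univ, Fintype.card_fin, ← hU,
    hV] at h2
  have hm : 1 ≤ m := Nat.one_le_iff_ne_zero.mpr fun h => by subst h; exact j.elim0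
  have hUZ : U ⊓ Z j = ⨅ j, Z j := by
    apply le_antisymm
    · refine le_iInf fun i => ?_
      by_cases hij : i = j
      · subst hij; exact inf_le_right
      · refine inf_le_left.trans ?_
        exact iInf₂_le i (Finset.mem_erase.mpr ⟨hij, Finset.mem_univ i⟩)
    · refine le_inf ?_ (iInf_le _ j)
      exact le_iInf₂ fun i _ => iInf_le _ i
  have hnot : ¬ U ≤ Z j := by
    intro hle
    rw [inf_eq_left.mpr hle] at hUZ
    rw [← hUZ] at h1
    omega
  obtain ⟨s, hsU, hsZ⟩ := Set.not_subset.mp hnot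
  refine ⟨s, fun i hij => ?_, hsZ⟩
  have := (Submodule.mem_iInf _).mp hsU i
  exact (Submodule.mem_iInf _).mp this (Finset.mem_erase.mpr ⟨hij, Finset.mem_univ i⟩)

end Lin

variable {k : Type u} [Field k]
  {B₀ B₁ B₀₁ : Type u} [CommRing B₀] [CommRing B₁] [CommRing B₀₁]
  [Algebra k B₀] [Algebra k B₁] [Algebra k B₀₁] [Algebra B₀ B₀₁] [Algebra B₁ B₀₁]
  [IsScalarTower k B₀ B₀₁] [IsScalarTower k B₁ B₀₁]
  {x : B₀} {y : B₁} {e : B₁ →ₐ[k] k}

section Ring

variable {A : Type u} [CommRing A] [Algebra k A]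

theorem xElt_mul_algebraMap_yElt (hC : IsCurveChart k B₀ B₁ B₀₁ x y e) :
    xElt k B₀₁ A x * algebraMap (A ⊗[k] B₁) (A ⊗[k] B₀₁) (yElt k A y) = 1 := by
  have h1 : algebraMap (A ⊗[k] B₁) (A ⊗[k] B₀₁) (yElt k A y) =
      (1 : A) ⊗ₜ[k] algebraMap B₁ B₀₁ y := by
    show tensorMapRight k A B₁ B₀₁ ((1 : A) ⊗ₜ[k] y) = _
    simp [tensorMapRight]
  rw [h1, xElt, Algebra.TensorProduct.tmul_mul_tmul, hC.mul_eq_one, mul_one]
  rfl

/-- If `H¹(G((n-1)E₀)) = 0`, every element of `N₁ / y N₁` lifts to a section of `G(nE₀)`. -/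
theorem exists_mem_sec_snd_sub_mem (hC : IsCurveChart k B₀ B₁ B₀₁ x y e)
    (G : CurveGD k B₀ B₁ B₀₁ A) {n : ℕ} (hn : 1 ≤ n) (h0 : P0 x (n - 1) G) (b : G.N₁) :
    ∃ s ∈ sec x n G, s.2 - b ∈ (Ideal.span {yElt k A y} • ⊤ : Submodule (A ⊗[k] B₁) G.N₁) := by
  obtain ⟨⟨a, c⟩, hac⟩ := h0 (xElt k B₀₁ A x ^ n • G.r₁ b)
  rw [tcech_apply] at hac
  refine ⟨(a, b + yElt k A y • c), ?_, ?_⟩
  · rw [mem_sec]
    have hxy := xElt_mul_algebraMap_yElt (A := A) hC
    have h1 : G.r₁ (b + yElt k A y • c) =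
        G.r₁ b + algebraMap (A ⊗[k] B₁) (A ⊗[k] B₀₁) (yElt k A y) • G.r₁ c := by
      rw [map_add, map_smul, algebraMap_smul]
    have h2 : xElt k B₀₁ A x ^ n = xElt k B₀₁ A x ^ (n - 1) * xElt k B₀₁ A x := by
      rw [← pow_succ, Nat.sub_add_cancel hn]
    show G.r₀ a = xElt k B₀₁ A x ^ n • G.r₁ (b + yElt k A y • c)
    rw [h1, smul_add, smul_smul, h2, mul_assoc, hxy, mul_one, ← h2, ← hac]
    abel
  · show b + yElt k A y • c - b ∈ _
    rw [add_sub_cancel_left]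
    exact Submodule.smul_mem_smul (Ideal.subset_span rfl) Submodule.mem_top

theorem ptHom_surjective (q : B₀ →ₐ[k] k) : Function.Surjective (ptHom q A) := fun a =>
  ⟨algebraMap A (A ⊗[k] B₀) a, (ptHom q A).commutes a⟩

/-- `(1 ⊗ x) ^ n` acts injectively on `N₀₁`. -/
theorem xElt_pow_smul_eq_zero (hC : IsCurveChart k B₀ B₁ B₀₁ x y e)
    (G : CurveGD k B₀ B₁ B₀₁ A) (n : ℕ) {z : G.N₀₁} (hz : xElt k B₀₁ A x ^ n • z = 0) :
    z = 0 := by
  have hxy := xElt_mul_algebraMap_yElt (A := A) hC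
  have h1 : (algebraMap (A ⊗[k] B₁) (A ⊗[k] B₀₁) (yElt k A y) ^ n * xElt k B₀₁ A x ^ n) • z
      = 0 := by
    rw [mul_smul, hz, smul_zero]
  rwa [← mul_pow, mul_comm, hxy, one_pow, one_smul] at h1

/-- A section of `G(nE₀)` whose first component vanishes is zero. -/
theorem eq_zero_of_mem_sec_of_fst_eq_zero (hC : IsCurveChart k B₀ B₁ B₀₁ x y e)
    (G : CurveGD k B₀ B₁ B₀₁ A) {n : ℕ} {s : G.N₀ × G.N₁} (hs : s ∈ sec x n G)
    (h : s.1 = 0) : s = 0 := by
  rw [mem_sec, h, map_zero] at hs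
  have h1 := xElt_pow_smul_eq_zero hC G n hs.symm
  have h2 : s.2 = 0 := by
    apply H250.r1_injective hC G
    rw [map_zero]
    exact h1
  exact Prod.ext h h2

end Ring

section Field

variable {K : Type u} [Field K] [Algebra k K]

instance ker_ptHom_isMaximal (q : B₀ →ₐ[k] k) : (RingHom.ker (ptHom q K)).IsMaximal :=
  RingHom.ker_isMaximal_of_surjective _ (ptHom_surjective q)

theorem ker_ptHom_injective :
    Function.Injective (fun q : B₀ →ₐ[k] k => RingHom.ker (ptHom q K)) := by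
  intro q q' h
  apply AlgHom.ext
  intro b
  have h1 : ((1 : K) ⊗ₜ[k] b - algebraMap K (K ⊗[k] B₀) (algebraMap k K (q b)) : K ⊗[k] B₀) ∈
      RingHom.ker (ptHom q K) := by
    rw [RingHom.mem_ker, map_sub, ptHom_tmul, AlgHom.commutes, one_mul]
    exact sub_self _
  have h2 : ((1 : K) ⊗ₜ[k] b - algebraMap K (K ⊗[k] B₀) (algebraMap k K (q b)) : K ⊗[k] B₀) ∈
      RingHom.ker (ptHom q' K) := by
    have h3 : RingHom.ker (ptHom q K) = RingHom.ker (ptHom q' K) := h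
    rw [← h3]; exact h1
  rw [RingHom.mem_ker, map_sub, ptHom_tmul, AlgHom.commutes, one_mul, sub_eq_zero] at h2
  exact ((algebraMap k K).injective h2).symm

/-- The sections of `G(nE₀)` vanishing at the `k`-point `q` of `Spec B₀`. -/
def secVanAt (x : B₀) (n : ℕ) (G : CurveGD k B₀ B₁ B₀₁ K) (q : B₀ →ₐ[k] k) :
    Submodule K (sec x n G) :=
  ((((RingHom.ker (ptHom q K) • ⊤ : Submodule (K ⊗[k] B₀) G.N₀).restrictScalars K).comap
    (LinearMap.fst K G.N₀ G.N₁)).comap (sec x n G).subtype)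

theorem mem_secVanAt {n : ℕ} {G : CurveGD k B₀ B₁ B₀₁ K} {q : B₀ →ₐ[k] k}
    {s : sec x n G} : s ∈ secVanAt x n G q ↔
      s.1.1 ∈ (RingHom.ker (ptHom q K) • ⊤ : Submodule (K ⊗[k] B₀) G.N₀) := Iff.rfl

/-- The sections of `G(nE₀)` whose component on `Spec (K ⊗ B₁)` vanishes at `P`. -/
def secVanInf (x : B₀) (n : ℕ) (G : CurveGD k B₀ B₁ B₀₁ K) (P : Ideal (K ⊗[k] B₁)) :
    Submodule K (sec x n G) :=
  ((((P • ⊤ : Submodule (K ⊗[k] B₁) G.N₁).restrictScalars K).comap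
    (LinearMap.snd K G.N₀ G.N₁)).comap (sec x n G).subtype)

theorem mem_secVanInf {n : ℕ} {G : CurveGD k B₀ B₁ B₀₁ K} {P : Ideal (K ⊗[k] B₁)}
    {s : sec x n G} : s ∈ secVanInf x n G P ↔
      s.1.2 ∈ (P • ⊤ : Submodule (K ⊗[k] B₁) G.N₁) := Iff.rfl

/-- The fibre of `N₀` at a `k`-point is a line over `K`. -/
theorem exists_smul_sub_mem_ker_ptHom (G : CurveGD k B₀ B₁ B₀₁ K) (q : B₀ →ₐ[k] k)
    {w : G.N₀} (hw : w ∉ (RingHom.ker (ptHom q K) • ⊤ : Submodule (K ⊗[k] B₀) G.N₀))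
    (v : G.N₀) :
    ∃ c : K, v - c • w ∈ (RingHom.ker (ptHom q K) • ⊤ : Submodule (K ⊗[k] B₀) G.N₀) := by
  haveI := G.invertible₀
  obtain ⟨r, hr⟩ := exists_smul_sub_mem_of_notMem (RingHom.ker (ptHom q K)) hw v
  refine ⟨ptHom q K r, ?_⟩
  have h1 : r - algebraMap K (K ⊗[k] B₀) (ptHom q K r) ∈ RingHom.ker (ptHom q K) := by
    rw [RingHom.mem_ker, map_sub, AlgHom.commutes]
    exact sub_self _
  have h2 : (r - algebraMap K (K ⊗[k] B₀) (ptHom q K r)) • w ∈
      (RingHom.ker (ptHom q K) • ⊤ : Submodule (K ⊗[k] B₀) G.N₀) :=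
    Submodule.smul_mem_smul h1 Submodule.mem_top
  have h3 : v - (ptHom q K r) • w =
      (v - r • w) + (r - algebraMap K (K ⊗[k] B₀) (ptHom q K r)) • w := by
    rw [sub_smul, algebraMap_smul]
    abel
  rw [h3]
  exact Submodule.add_mem _ hr h2

theorem secVanAt_codim (n : ℕ) (G : CurveGD k B₀ B₁ B₀₁ K) [FiniteDimensional K (sec x n G)]
    (q : B₀ →ₐ[k] k) (U : Submodule K (sec x n G)) :
    finrank K U ≤ finrank K (U ⊓ secVanAt x n G q : Submodule K (sec x n G)) + 1 := by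
  apply finrank_le_finrank_inf_add_one_of_forall
  intro v w hw
  obtain ⟨c, hc⟩ := exists_smul_sub_mem_ker_ptHom G q (fun h => hw (mem_secVanAt.mpr h)) v.1.1
  exact ⟨c, mem_secVanAt.mpr hc⟩

variable [IsAlgClosed k]

theorem secVanAt_finite (hC : IsCurveChart k B₀ B₁ B₀₁ x y e) (n : ℕ)
    (G : CurveGD k B₀ B₁ B₀₁ K) {s : sec x n G} (hs : s ≠ 0) :
    {q : B₀ →ₐ[k] k | s ∈ secVanAt x n G q}.Finite := by
  haveI := H207.isDedekindDomain_tensor_chart₀ hC K
  haveI := G.invertible₀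
  have hs1 : s.1.1 ≠ 0 := fun h =>
    hs (Subtype.ext (eq_zero_of_mem_sec_of_fst_eq_zero hC G s.2 h))
  have hfin := H687.finite_zeros_of_section (B := K ⊗[k] B₀) (N := G.N₀) hs1
  refine Set.Finite.of_finite_image (f := fun q : B₀ →ₐ[k] k => RingHom.ker (ptHom q K))
    (hfin.subset ?_) (ker_ptHom_injective.injOn)
  rintro _ ⟨q, hq, rfl⟩
  exact ⟨ker_ptHom_isMaximal q, mem_secVanAt.mp hq⟩

omit [IsAlgClosed k] in
theorem secVanInf_ne_top (hC : IsCurveChart k B₀ B₁ B₀₁ x y e)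
    (G : CurveGD k B₀ B₁ B₀₁ K) {n : ℕ} (hn : 1 ≤ n) (h0 : P0 x (n - 1) G)
    (P : Ideal (K ⊗[k] B₁)) [hP : P.IsMaximal] (hy : yElt k K y ∈ P) :
    secVanInf x n G P ≠ ⊤ := by
  haveI := G.invertible₁
  intro htop
  apply smul_top_ne_top_of_invertible (N := G.N₁) P
  rw [eq_top_iff]
  intro b _
  obtain ⟨s, hs, hsb⟩ := exists_mem_sec_snd_sub_mem hC G hn h0 b
  have h1 : (⟨s, hs⟩ : sec x n G) ∈ secVanInf x n G P := by rw [htop]; trivial
  have h2 : s.2 ∈ (P • ⊤ : Submodule (K ⊗[k] B₁) G.N₁) := mem_secVanInf.mp h1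
  have h3 : (Ideal.span {yElt k K y} • ⊤ : Submodule (K ⊗[k] B₁) G.N₁) ≤ P • ⊤ :=
    Submodule.smul_mono_left ((Ideal.span_singleton_le_iff_mem _).mpr hy)
  have h4 := Submodule.sub_mem _ h2 (h3 hsb)
  simpa using h4

omit [IsAlgClosed k] in
/-- `I_q N₀ = ⋂ 𝔪_{q j} N₀` for distinct points. -/
theorem mem_vanq_iff (G : CurveGD k B₀ B₁ B₀₁ K) {m : ℕ} {q : Fin m → (B₀ →ₐ[k] k)}
    (hq : Function.Injective q) (a : G.N₀) :
    a ∈ vanq q G ↔
      ∀ j, a ∈ (RingHom.ker (ptHom (q j) K) • ⊤ : Submodule (K ⊗[k] B₀) G.N₀) := by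
  have h1 := prod_smul_top_eq_iInf (N := G.N₀) Finset.univ
    (fun j => RingHom.ker (ptHom (q j) K)) (fun j => ker_ptHom_isMaximal (q j))
    (ker_ptHom_injective.comp hq)
  show a ∈ (ptIdeal q K • ⊤ : Submodule (K ⊗[k] B₀) G.N₀) ↔ _
  unfold ptIdeal
  rw [h1]
  simp [Submodule.mem_iInf]

omit [IsAlgClosed k] in
theorem mem_iInf_secVanAt_iff (G : CurveGD k B₀ B₁ B₀₁ K) {n m : ℕ}
    {q : Fin m → (B₀ →ₐ[k] k)} (hq : Function.Injective q) (s : sec x n G) :
    s ∈ (⨅ j, secVanAt x n G (q j)) ↔ s.1 ∈ secq x n q G := by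
  rw [Submodule.mem_iInf, mem_secq, mem_vanq_iff G hq]
  exact ⟨fun h => ⟨s.2, fun j => mem_secVanAt.mp (h j)⟩, fun h j => mem_secVanAt.mpr (h.2 j)⟩

omit [IsAlgClosed k] in
/-- Stage `P1` from independence of the conditions at the points `q j`. -/
theorem P1_of_finrank_iInf (G : CurveGD k B₀ B₁ B₀₁ K) {n m : ℕ}
    [FiniteDimensional K (sec x n G)] (h0 : P0 x n G)
    {q : Fin m → (B₀ →ₐ[k] k)} (hq : Function.Injective q)
    (hV : finrank K (sec x n G) = m + 1)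
    (h1 : finrank K (⨅ j, secVanAt x n G (q j) : Submodule K (sec x n G)) = 1) :
    P1 x n q G := by
  classical
  refine ⟨h0, fun a => ?_⟩
  have hex := fun j => exists_mem_forall_ne_notMem (fun j => secVanAt x n G (q j))
    (fun j U => secVanAt_codim n G (q j) U) hV h1 j
  choose t ht1 ht2 using hex
  have hc : ∀ j, ∃ c : K, a - c • (t j).1.1 ∈
      (RingHom.ker (ptHom (q j) K) • ⊤ : Submodule (K ⊗[k] B₀) G.N₀) :=
    fun j => exists_smul_sub_mem_ker_ptHom G (q j) (fun h => ht2 j (mem_secVanAt.mpr h)) a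
  choose c hc using hc
  refine ⟨(∑ j, c j • t j : sec x n G).1, (∑ j, c j • t j : sec x n G).2, ?_⟩
  rw [mem_vanq_iff G hq]
  intro i
  let π : sec x n G →ₗ[K] G.N₀ := (LinearMap.fst K G.N₀ G.N₁).comp (sec x n G).subtype
  let Mi : Submodule K G.N₀ :=
    (RingHom.ker (ptHom (q i) K) • ⊤ : Submodule (K ⊗[k] B₀) G.N₀).restrictScalars K
  show a - π (∑ j, c j • t j) ∈ Mi
  rw [map_sum, ← Finset.add_sum_erase Finset.univ _ (Finset.mem_univ i), ← sub_sub]
  refine Submodule.sub_mem _ ?_ ?_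
  · rw [map_smul]
    exact hc i
  · refine Submodule.sum_mem _ fun j hj => ?_
    rw [map_smul]
    refine Submodule.smul_mem _ _ ?_
    exact mem_secVanAt.mp (ht1 j i (Finset.ne_of_mem_erase hj).symm)

/-- **COV1, precise form.**  Let `G` be a gluing datum of degree `0` over a field `K ⊇ k`, let
`n ≥ 1` with `H¹(G((n-1)E₀)) = 0 = H¹(G(nE₀))` and `m + g = n d`.  Then there are `m` distinct
`k`-points `q` of `Spec B₀`, avoiding any given finite set, with `P2 x y n q G`. -/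
theorem exists_P2_of_P0 (hC : IsCurveChart k B₀ B₁ B₀₁ x y e) (G : CurveGD k B₀ B₁ B₀₁ K)
    (hdeg : G.degree = 0) {n : ℕ} (hn : 1 ≤ n) (h0 : P0 x (n - 1) G) (h0' : P0 x n G)
    {m : ℕ}
    (hm : m + finrank k (GlueDatum.unit k (k ⊗[k] B₀) (k ⊗[k] B₁) (k ⊗[k] B₀₁)).H1 =
      n * finrank k (B₁ ⧸ Ideal.span {y}))
    (avoid : Set (B₀ →ₐ[k] k)) (havoid : avoid.Finite) :
    ∃ q : Fin m → (B₀ →ₐ[k] k), Function.Injective q ∧ (∀ j, q j ∉ avoid) ∧ P2 x y n q G := by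
  classical
  haveI := hC.isDomain₀
  haveI := H207.finiteType_chart₀ hC
  haveI : Infinite (B₀ →ₐ[k] k) := H687.infinite_algHom k (H207.not_isField_chart₀ hC)
  haveI := G.invertible₀
  haveI := G.invertible₁
  obtain ⟨hfinV, hrank⟩ := H250.finrank_sec hC G hdeg n h0'
  haveI : FiniteDimensional K (sec x n G) := hfinV
  have hV : finrank K (sec x n G) = m + 1 := by omega
  -- the finitely many points at infinity
  haveI : Module.Finite K ((K ⊗[k] B₁) ⧸ Ideal.span {yElt k K y}) :=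
    (H250.finrank_tensor_quotient_y hC K).1
  have hPfin : {P : Ideal (K ⊗[k] B₁) | P.IsMaximal ∧ yElt k K y ∈ P}.Finite :=
    finite_setOf_isMaximal_mem_of_finite_quotient (K := K) (yElt k K y)
  set H : Finset (Submodule K (sec x n G)) := hPfin.toFinset.image (secVanInf x n G) with hH
  have hHne : ∀ W ∈ H, W ≠ ⊤ := by
    intro W hW
    obtain ⟨P, hP, rfl⟩ := Finset.mem_image.mp hW
    obtain ⟨hPmax, hPy⟩ := hPfin.mem_toFinset.mp hP
    exact secVanInf_ne_top hC G hn h0 P hPy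
  obtain ⟨q, hqinj, hqavoid, hq1, hqH⟩ := exists_tuple_points (secVanAt x n G)
    (secVanAt_codim n G) (fun s hs => secVanAt_finite hC n G hs) H hHne avoid havoid m hV
  refine ⟨q, hqinj, hqavoid, P1_of_finrank_iInf G h0' hqinj hV hq1, ?_⟩
  -- the generator
  obtain ⟨v, hv0, hv⟩ := (@finrank_eq_one_iff' K
    ↥(⨅ j, secVanAt x n G (q j) : Submodule K (sec x n G)) _ _ _ _
    (Module.Free.of_divisionRing K _)).mp hq1
  have hvmem : v.1.1 ∈ secq x n q G := (mem_iInf_secVanAt_iff G hqinj v.1).mp v.2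
  refine ⟨v.1.1, hvmem, ?_, ?_⟩
  · intro t ht
    have ht' : (⟨t, (mem_secq.mp ht).1⟩ : sec x n G) ∈ ⨅ j, secVanAt x n G (q j) :=
      (mem_iInf_secVanAt_iff G hqinj _).mpr ht
    obtain ⟨c, hc⟩ := hv ⟨_, ht'⟩
    refine ⟨c, ?_⟩
    have := congrArg (fun w : (⨅ j, secVanAt x n G (q j) : Submodule K (sec x n G)) => w.1.1) hc
    exact this.symm
  · -- `s₁` generates `N₁` modulo `y`
    set M' : Submodule (K ⊗[k] B₁) G.N₁ :=
      Submodule.span (K ⊗[k] B₁) {v.1.1.2} ⊔ Ideal.span {yElt k K y} • ⊤ with hM'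
    have hM'top : M' = ⊤ := by
      apply eq_top_of_forall_isMaximal_sup_smul
      intro P hPmax hann
      have hyP : yElt k K y ∈ P := by
        apply hann
        rw [Module.mem_annihilator]
        intro z
        obtain ⟨a, rfl⟩ := Submodule.Quotient.mk_surjective M' z
        rw [← Submodule.Quotient.mk_smul, Submodule.Quotient.mk_eq_zero]
        exact le_sup_right (α := Submodule (K ⊗[k] B₁) G.N₁)
          (Submodule.smul_mem_smul (Ideal.subset_span rfl) Submodule.mem_top)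
      have hW : secVanInf x n G P ∈ H :=
        Finset.mem_image.mpr ⟨P, hPfin.mem_toFinset.mpr ⟨hPmax, hyP⟩, rfl⟩
      have hbot := hqH _ hW
      have hvP : v.1.1.2 ∉ (P • ⊤ : Submodule (K ⊗[k] B₁) G.N₁) := by
        intro hmem
        have h1 : v.1 ∈ (⨅ j, secVanAt x n G (q j)) ⊓ secVanInf x n G P :=
          ⟨v.2, mem_secVanInf.mpr hmem⟩
        rw [hbot, Submodule.mem_bot] at h1
        exact hv0 (Subtype.ext h1)
      rw [eq_top_iff]
      intro c _
      obtain ⟨r, hr⟩ := exists_smul_sub_mem_of_notMem P hvP c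
      have h2 : c = r • v.1.1.2 + (c - r • v.1.1.2) := by abel
      rw [h2]
      refine Submodule.add_mem _ ?_ ?_
      · exact le_sup_left (α := Submodule (K ⊗[k] B₁) G.N₁) (le_sup_left
          (α := Submodule (K ⊗[k] B₁) G.N₁)
          (Submodule.smul_mem _ _ (Submodule.mem_span_singleton_self _)))
      · exact le_sup_right (α := Submodule (K ⊗[k] B₁) G.N₁) hr
    intro c
    have hc : c ∈ M' := by rw [hM'top]; trivial
    obtain ⟨u, hu, z, hz, huz⟩ := Submodule.mem_sup.mp hc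
    obtain ⟨r, rfl⟩ := Submodule.mem_span_singleton.mp hu
    refine ⟨r, ?_⟩
    rw [← huz, add_sub_cancel_left]
    exact hz

/-- **COV1, uniform form.**  For a gluing datum `G` of degree `0` over a field `K ⊇ k` there is
`n₁` such that for every `n ≥ n₁` and every finite set `avoid` of `k`-points of `Spec B₀` there
are `m = n d - g` distinct `k`-points `q` outside `avoid` with `P2 x y n q G`. -/
theorem exists_P2_ge (hC : IsCurveChart k B₀ B₁ B₀₁ x y e) (G : CurveGD k B₀ B₁ B₀₁ K)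
    (hdeg : G.degree = 0) :
    ∃ n₁ : ℕ, ∀ n, n₁ ≤ n → ∀ avoid : Set (B₀ →ₐ[k] k), avoid.Finite →
      ∃ (m : ℕ) (q : Fin m → (B₀ →ₐ[k] k)), Function.Injective q ∧ (∀ j, q j ∉ avoid) ∧
        m + finrank k (GlueDatum.unit k (k ⊗[k] B₀) (k ⊗[k] B₁) (k ⊗[k] B₀₁)).H1 =
          n * finrank k (B₁ ⧸ Ideal.span {y}) ∧
        P0 x (n - 1) G ∧ P2 x y n q G := by
  obtain ⟨n₀, hn₀⟩ := H190.exists_P0 hC G
  set g := finrank k (GlueDatum.unit k (k ⊗[k] B₀) (k ⊗[k] B₁) (k ⊗[k] B₀₁)).H1 with hg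
  have hd : 0 < finrank k (B₁ ⧸ Ideal.span {y}) := H250.chartDeg_pos hC
  refine ⟨max (n₀ + 1) g, fun n hn avoid havoid => ?_⟩
  have hn1 : n₀ + 1 ≤ n := (le_max_left _ _).trans hn
  have hn2 : g ≤ n := (le_max_right _ _).trans hn
  have hnd : g ≤ n * finrank k (B₁ ⧸ Ideal.span {y}) :=
    hn2.trans (Nat.le_mul_of_pos_right n hd)
  have hm : n * finrank k (B₁ ⧸ Ideal.span {y}) - g + g =
      n * finrank k (B₁ ⧸ Ideal.span {y}) := Nat.sub_add_cancel hnd
  have h0 : P0 x (n - 1) G := hn₀ _ (by omega)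
  obtain ⟨q, hq1, hq2, hq3⟩ := exists_P2_of_P0 hC G hdeg (by omega : 1 ≤ n)
    h0 (hn₀ _ (by omega)) hm avoid havoid
  exact ⟨_, q, hq1, hq2, hm, h0, hq3⟩

/-- **COV1.**  Every gluing datum of degree `0` over a field `K ⊇ k` lies in stage `P2` for some
twist `n` and some `m` distinct `k`-points `q` with `m + g = n d`. -/
theorem exists_P2 (hC : IsCurveChart k B₀ B₁ B₀₁ x y e) (G : CurveGD k B₀ B₁ B₀₁ K)
    (hdeg : G.degree = 0) :
    ∃ (n m : ℕ) (q : Fin m → (B₀ →ₐ[k] k)), Function.Injective q ∧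
      m + finrank k (GlueDatum.unit k (k ⊗[k] B₀) (k ⊗[k] B₁) (k ⊗[k] B₀₁)).H1 =
        n * finrank k (B₁ ⧸ Ideal.span {y}) ∧
      P2 x y n q G := by
  obtain ⟨n₁, h⟩ := exists_P2_ge hC G hdeg
  obtain ⟨m, q, hq1, -, hm, -, hq3⟩ := h n₁ le_rfl ∅ Set.finite_empty
  exact ⟨n₁, m, q, hq1, hm, hq3⟩

end Field

end Fermat.Agent.S25.H850
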