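import Fermat.Agent.S25.H550.DegConst
import Fermat.Agent.S25.H850.EulerConst

/-!
# S25 / block DEGREE, leaf D9: the fibrewise degree is locally constant on `Spec A`

`exists_locallyConstant_degree` is the exact statement of `H10/DegreeSkel.lean` (D9), for an
arbitrary base ring `A` (no domain hypothesis).  Also the Euler-characteristic version
`exists_locallyConstant_euler`.
-/

set_option autoImplicit false

namespace Fermat.Agent.S25.H850

open scoped TensorProduct
open Fermat.Agent.S25 Fermat.Agent.S25.H10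

universe u

variable {k : Type u} [Field k] {B₀ B₁ B₀₁ : Type u} [CommRing B₀] [CommRing B₁] [CommRing B₀₁]
  [Algebra k B₀] [Algebra k B₁] [Algebra k B₀₁] [Algebra B₀ B₀₁] [Algebra B₁ B₀₁]
  [IsScalarTower k B₀ B₀₁] [IsScalarTower k B₁ B₀₁]
  {x : B₀} {y : B₁} {e : B₁ →ₐ[k] k}

/-- The Euler characteristic of the fibres of a gluing datum over any ring `A` is a locally
constant function on `Spec A`. -/
theorem exists_locallyConstant_euler (hC : IsCurveChart k B₀ B₁ B₀₁ x y e) {A : Type u}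
    [CommRing A] [Algebra k A] (G : CurveGD k B₀ B₁ B₀₁ A) :
    ∃ χ : PrimeSpectrum A → ℤ, IsLocallyConstant χ ∧
      ∀ (K : Type u) [Field K] [Algebra k K] (φ : A →ₐ[k] K) (G' : CurveGD k B₀ B₁ B₀₁ K),
        CurveGD.IsBC φ G G' →
          G'.euler = χ ⟨RingHom.ker φ.toRingHom, RingHom.ker_isPrime _⟩ := by
  obtain ⟨χ, hχ, hK⟩ := exists_isLocallyConstant_euler.{u, u, u}
    (Fermat.Agent.S25.H250.chartCechOps hC G)
    (Fermat.Agent.S25.H250.isFGProj_X0 hC G) (Fermat.Agent.S25.H250.isFGProj_Y1 hC G)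
    (Fermat.Agent.S25.H250.r0_injective hC G) (Fermat.Agent.S25.H250.r1_injective hC G)
  rw [Fermat.Agent.S25.H250.chartCechOps_d_zero hC G] at hK
  refine ⟨χ, hχ, fun K _ _ φ G' hbc => ?_⟩
  let algAK : Algebra A K := φ.toRingHom.toAlgebra
  have : IsScalarTower k A K := IsScalarTower.of_algebraMap_eq (fun r => (φ.commutes r).symm)
  have hφ : ∀ a, φ a = algebraMap A K a := fun _ => rfl
  obtain ⟨-, -, hind⟩ := hK K
  obtain ⟨E, E₀₁, hE⟩ := Fermat.Agent.S25.H550.exists_cech_baseChange_equiv φ hφ G G' hbc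
  obtain ⟨k3⟩ := Fermat.Agent.S25.H550.nonempty_ker_equiv_of_square (R := K)
    (f := G.cech.baseChange K) (f' := G'.cech) E E₀₁.toLinearMap E₀₁.injective hE
  obtain ⟨c3⟩ := Fermat.Agent.S25.H550.nonempty_coker_equiv_of_square (R := K)
    (f := G.cech.baseChange K) (f' := G'.cech) E.toLinearMap E.surjective E₀₁ hE
  have e0 : Module.finrank K G'.H0 =
      Module.finrank K (LinearMap.ker (G.cech.baseChange K)) := k3.finrank_eq.symm
  have e1 : Module.finrank K G'.H1 =
      Module.finrank K ((K ⊗[A] G.N₀₁) ⧸ LinearMap.range (G.cech.baseChange K)) :=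
    c3.finrank_eq.symm
  rw [GlueDatum.euler, e0, e1]
  exact hind

/-- **D9** (exact statement of `DegreeSkel.lean`). The fibrewise degree is a locally constant
function on `Spec A`. -/
theorem exists_locallyConstant_degree (hC : IsCurveChart k B₀ B₁ B₀₁ x y e) {A : Type u}
    [CommRing A] [Algebra k A] (G : CurveGD k B₀ B₁ B₀₁ A) :
    ∃ δ : PrimeSpectrum A → ℤ, IsLocallyConstant δ ∧
      ∀ (K : Type u) [Field K] [Algebra k K] (φ : A →ₐ[k] K) (G' : CurveGD k B₀ B₁ B₀₁ K),
        CurveGD.IsBC φ G G' →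
          G'.degree = δ ⟨RingHom.ker φ.toRingHom, RingHom.ker_isPrime _⟩ := by
  obtain ⟨χ, hχ, h1⟩ := exists_locallyConstant_euler hC G
  obtain ⟨χ₀, hχ₀, h2⟩ := exists_locallyConstant_euler hC
    (GlueDatum.unit A (A ⊗[k] B₀) (A ⊗[k] B₁) (A ⊗[k] B₀₁))
  refine ⟨fun p => χ p - χ₀ p, hχ.sub hχ₀, fun K _ _ φ G' hbc => ?_⟩
  rw [GlueDatum.degree, h1 K φ G' hbc, h2 K φ _ (Fermat.Agent.S25.H550.isBC_unit φ)]

end Fermat.Agent.S25.H850
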